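import Mathlib
import Fermat.Agent.LT.T7.P51.ConvAvgSpec
import Fermat.Agent.LT.T7.H893.SupplySphSpec

/-!
# Row LT, tower T7, leaf T7.L2.1.H2b.G2.5 `RegAC51` (registry row 2937, helper869): ASSEMBLY

OFF-MAIN.  New names only (suffix `869`).  No hole, nothing assumed.

    regAC_of869 : P51.LevelAtC51 K K' → H893.SphInvC893 K → H893.SphInvC893 K' → P51.UnitRegC51
        → P51.RegAC51 K K'                                                      (VERBATIM)

The components of the shape `LocA893` are the unit functions at the places of the level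
(`UnitRegC51`), spherical functions outside the level, where the exponents of the levels
vanish (`LevelAtC51`, `SphInvC893`), and the clauses `arch_up`, `arch_down` of `LocHyp305` at
the infinite places.
-/

set_option autoImplicit false

open AutomorphicForm IsDedekindDomain NumberField MeasureTheory

noncomputable section

namespace Fermat.Agent.LT.T7.H869

open Fermat.Agent.LT.H556 Fermat.Agent.LT.H556.A0 Fermat.Agent.LT.T7
open Fermat.Agent.LT.T7.H305 Fermat.Agent.LT.T7.H893 Fermat.Agent.LT.T7.P51

variable (K K' : Type) [Field K] [NumberField K] [Field K'] [NumberField K'] [Algebra K K']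

/-- **`RegAC51` from the level bookkeeping and the local regularity of the unit and of the
spherical functions.** -/
theorem regAC_of869 (hL : LevelAtC51 K K') (hS : SphInvC893 K) (hS' : SphInvC893 K')
    (hU : UnitRegC51) : RegAC51 K K' := by
  intro ℓ Φ B g 𝔫 μc T₀ n n₀ m hctx T φ₀ Φ' f₀ F _hT hA
  obtain ⟨hunit_dn, hunit_up, hsph, harch⟩ := hA
  have hlev := hL 𝔫 T₀ n m hctx.mem_T₀ hctx.lev_m hctx.lev_n
  refine ⟨?_, ?_, ?_⟩
  · intro v hv
    by_cases hv0 : v ∈ T₀
    · refine ⟨fun w hw => ?_, ?_⟩
      · rw [hunit_up v hv0 w hw]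
        exact hU (w.adicCompletion K') (n w)
      · rw [hunit_dn v hv0]
        exact hU (v.adicCompletion K) (m v)
    · obtain ⟨A, Av, hf, hφ, -, -⟩ := hsph v hv hv0
      refine ⟨fun w hw => ?_, ?_⟩
      · rw [hlev.2 v w hv0 hw]
        exact hS' w (φ₀ w) (A w) (hφ w hw)
      · rw [hlev.1 v hv0]
        exact hS v (f₀ v) Av hf
  · intro w
    exact ⟨(harch.1.arch_up w).1, (harch.1.arch_up w).2.1⟩
  · intro v
    exact ⟨(harch.1.arch_down v).1, (harch.1.arch_down v).2.1⟩

end Fermat.Agent.LT.T7.H869

end
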