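import Mathlib
import Fermat.Agent.LT.T7.P51.ConvAvgSpec

/-!
# Row LT, tower T7: the unit function `1_{U(n)}` is regular (helper869; used by `RegA.lean`)

OFF-MAIN.  New names only (suffix `869`).
-/

set_option autoImplicit false

open AutomorphicForm IsDedekindDomain NumberField MeasureTheory

noncomputable section

namespace Fermat.Agent.LT.T7.H869

open Fermat.Agent.LT.H556 Fermat.Agent.LT.H556.A0 Fermat.Agent.LT.T7
open Fermat.Agent.LT.T7.H305 Fermat.Agent.LT.T7.H893 Fermat.Agent.LT.T7.P51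

section Local

variable {k : Type} [Field k] [Valued k T6.Γ₀]

/-- The entries of `M` have valuation at most `e`. -/
def EntLe869 (e : T6.Γ₀) (M : Matrix (Fin 2) (Fin 2) k) : Prop :=
  ∀ i j : Fin 2, Valued.v (M i j) ≤ e

theorem entLe_add869 {e : T6.Γ₀} {M N : Matrix (Fin 2) (Fin 2) k} (hM : EntLe869 e M)
    (hN : EntLe869 e N) : EntLe869 e (M + N) := by
  intro i j
  rw [Matrix.add_apply]
  exact (Valued.v.map_add _ _).trans (max_le (hM i j) (hN i j))

theorem entLe_mul869 {e : T6.Γ₀} (he : e ≤ 1) {M N : Matrix (Fin 2) (Fin 2) k}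
    (hM : EntLe869 e M) (hN : EntLe869 e N) : EntLe869 e (M * N) := by
  intro i j
  rw [Matrix.mul_apply, Fin.sum_univ_two]
  have h : ∀ l : Fin 2, Valued.v (M i l * N l j) ≤ e := by
    intro l
    rw [map_mul]
    calc Valued.v (M i l) * Valued.v (N l j) ≤ e * 1 :=
          mul_le_mul' (hM i l) ((hN l j).trans he)
      _ = e := mul_one e
  exact (Valued.v.map_add _ _).trans (max_le (h 0) (h 1))

theorem inU_iff869 (n : ℕ) (g : GL (Fin 2) k) :
    T6.InU n g ↔ EntLe869 (WithZero.exp (-(n : ℤ)))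
        ((g : Matrix (Fin 2) (Fin 2) k) - 1) ∧
      EntLe869 (WithZero.exp (-(n : ℤ)))
        (((g⁻¹ : GL (Fin 2) k) : Matrix (Fin 2) (Fin 2) k) - 1) := by
  constructor
  · intro h
    exact ⟨fun i j => by rw [Matrix.sub_apply]; exact (h i j).1,
      fun i j => by rw [Matrix.sub_apply]; exact (h i j).2⟩
  · intro h i j
    have h1 := h.1 i j
    have h2 := h.2 i j
    rw [Matrix.sub_apply] at h1 h2
    exact ⟨h1, h2⟩

theorem exp_neg_le_one869 (n : ℕ) : (WithZero.exp (-(n : ℤ)) : T6.Γ₀) ≤ 1 := by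
  rw [← WithZero.exp_zero, WithZero.exp_le_exp]
  omega

theorem inU_one869 (n : ℕ) : T6.InU n (1 : GL (Fin 2) k) := by
  rw [inU_iff869]
  constructor <;> intro i j <;> simp

theorem inU_inv869 {n : ℕ} {g : GL (Fin 2) k} (h : T6.InU n g) : T6.InU n g⁻¹ := by
  intro i j
  rw [inv_inv]
  exact ⟨(h i j).2, (h i j).1⟩

theorem entLe_mul_sub_one869 {e : T6.Γ₀} (he : e ≤ 1) {A B : Matrix (Fin 2) (Fin 2) k}
    (hA : EntLe869 e (A - 1)) (hB : EntLe869 e (B - 1)) : EntLe869 e (A * B - 1) := by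
  have : A * B - 1 = (A - 1) * (B - 1) + ((A - 1) + (B - 1)) := by
    noncomm_ring
  rw [this]
  exact entLe_add869 (entLe_mul869 he hA hB) (entLe_add869 hA hB)

theorem inU_mul869 {n : ℕ} {g h : GL (Fin 2) k} (hg : T6.InU n g) (hh : T6.InU n h) :
    T6.InU n (g * h) := by
  rw [inU_iff869] at hg hh ⊢
  refine ⟨?_, ?_⟩
  · rw [Units.val_mul]
    exact entLe_mul_sub_one869 (exp_neg_le_one869 n) hg.1 hh.1
  · rw [mul_inv_rev, Units.val_mul]
    exact entLe_mul_sub_one869 (exp_neg_le_one869 n) hh.2 hg.2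

theorem inU_mul_iff_left869 {n : ℕ} {u g : GL (Fin 2) k} (hu : T6.InU n u) :
    T6.InU n (u * g) ↔ T6.InU n g := by
  constructor
  · intro h
    have := inU_mul869 (inU_inv869 hu) h
    rwa [inv_mul_cancel_left] at this
  · exact inU_mul869 hu

theorem inU_mul_iff_right869 {n : ℕ} {u g : GL (Fin 2) k} (hu : T6.InU n u) :
    T6.InU n (g * u) ↔ T6.InU n g := by
  constructor
  · intro h
    have := inU_mul869 h (inU_inv869 hu)
    rwa [mul_inv_cancel_right] at this
  · exact fun h => inU_mul869 h hu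

end Local

/-- **LEAF P.G2.10 `UnitRegC51`** (spare proof, used for the plug of `RegAC51`). -/
theorem unitRegC869 : UnitRegC51 := by
  intro k _ _ n
  refine ⟨?_, ?_⟩
  · intro u u' g hu hu'
    have h : T6.InU n (u * g * u') ↔ T6.InU n g := by
      rw [inU_mul_iff_right869 hu', inU_mul_iff_left869 hu]
    delta unitFn893
    beta_reduce
    by_cases hg : T6.InU n g
    · rw [if_pos (h.mpr hg), if_pos hg]
    · rw [if_neg (fun h' => hg (h.mp h')), if_neg hg]
  · refine ⟨{1}, fun g hg => ⟨1, Finset.mem_singleton_self 1, g, ?_, (one_mul g).symm⟩⟩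
    by_contra h
    apply hg
    delta unitFn893
    beta_reduce
    rw [if_neg h]

end Fermat.Agent.LT.T7.H869

end
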