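import Mathlib
import Fermat.Agent.LT.T7.H869.RegA
import Fermat.Agent.LT.T7.H869.UnitReg
import Fermat.Agent.LT.T7.H644.ProdBook
import Fermat.Agent.LT.T7.H315.SphInv

/-!
# Row LT, tower T7, leaf T7.L2.1.H2b.G2.5 `RegAC51` (registry row 2937, helper869): CLOSED

OFF-MAIN.  New names only (suffix `869`).  The plug of `regAC_of869` with the closed leaves
`levelAtC644` (helper644, row 2890), `sphInvC315` (helper315, row 2885) and `unitRegC869`.

    regAC869 (K K') : P51.RegAC51 K K'                                (VERBATIM, UNCONDITIONAL)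
-/

set_option autoImplicit false

open AutomorphicForm IsDedekindDomain NumberField MeasureTheory

noncomputable section

namespace Fermat.Agent.LT.T7.H869

open Fermat.Agent.LT.T7.P51

variable (K K' : Type) [Field K] [NumberField K] [Field K'] [NumberField K'] [Algebra K K']

/-- **LEAF P.G2.5 `RegAC51`, unconditional.** -/
theorem regAC869 : RegAC51 K K' :=
  regAC_of869 K K' (Fermat.Agent.LT.T7.H644.levelAtC644 K K')
    (Fermat.Agent.LT.T7.H315.sphInvC315 K) (Fermat.Agent.LT.T7.H315.sphInvC315 K') unitRegC869

end Fermat.Agent.LT.T7.H869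

end
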